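/-
S59: the objects shared by the units: the residual setting, lifts generated by their traces, local
conditions, and systems (a lift with a faithful module occurring in weight two forms).
-/
import Fermat.Agent.TW.Defs
import Fermat.Agent.R59.Crit.Defs
import Fermat.Agent.Auto.Lat
import Fermat.Prelude.Def_GaloisRep_Flat
import Fermat.Prelude.Def_CuspForm_HeckeAlgebra
import Fermat.Agent.Deform.MatrixRep

set_option autoImplicit false

noncomputable section

open IsLocalRing
open Fermat.Agent.Galois (GQ)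

namespace Fermat.Agent.R59

variable (p : ℕ) [Fact p.Prime] (O : Type) [CommRing O] [IsDomain O] [IsDiscreteValuationRing O]
  [IsAdicComplete (maximalIdeal O) O] [Finite (ResidueField O)]
  [Algebra ℤ_[p] O] [Module.Finite ℤ_[p] O] [CharZero O]

/-- The matrices of a residual representation in a basis. -/
def residMat {k : Type} [Field k] (ρbar : ResidualGaloisRep k)
    (b : Module.Basis (Fin 2) k ρbar.V) : GQ →* Deform.Mat2 k :=
  MonoidHom.comp (LinearMap.toMatrixAlgEquiv b).toMulEquiv.toMonoidHom ρbar.ρ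

/-- The residual setting at the minimal level `N` (auxiliary primes included): `U` are the primes
other than `p` where `ρbar` is ramified, `aux` auxiliary primes making the level neat, `ord` says
whether `p` divides `N` (ordinary) or not (flat). -/
structure Seed (ρbar : ResidualGaloisRep (ResidueField O)) (N : ℕ) [NeZero N] (U aux S : Finset ℕ)
    (a : ℕ → O) (ord : Bool) : Prop where
  p_ne_two : p ≠ 2
  p_mem_maximal : (p : O) ∈ maximalIdeal O
  absIrr : ρbar.IsAbsolutelyIrreducible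
  det_cyclotomic : (GaloisRepAdic.ofResidualGaloisRep ρbar).DetIsCyclotomic p
  twHyp : ∀ b : Module.Basis (Fin 2) (ResidueField O) ρbar.V, TW.TWHyp p (residMat ρbar b)
  squarefree : Squarefree N
  p_dvd_iff : p ∣ N ↔ ord = true
  p_mem : p ∈ S
  prime_S : ∀ l ∈ S, l.Prime
  level_mem : ∀ l : ℕ, l.Prime → l ∣ N → l ∈ S
  dvd_iff : ∀ l : ℕ, l.Prime → l ≠ p → (l ∣ N ↔ l ∈ U ∨ l ∈ aux)
  mem_U : ∀ l ∈ U, l.Prime ∧ l ≠ p ∧ l ∉ aux ∧ ¬ ρbar.IsUnramifiedAt l
  unipotent : ∀ l ∈ U, (GaloisRepAdic.ofResidualGaloisRep ρbar).IsUnipotentOnInertiaAt l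
  unramified : ∀ l : ℕ, l.Prime → l ≠ p → l ∉ U → ρbar.IsUnramifiedAt l
  mem_aux : ∀ r ∈ aux, r.Prime ∧ r ≠ p ∧ ¬ r ≡ 1 [MOD p] ∧
    IsUnit (a r ^ 2 - ((r : O) + 1) ^ 2)
  neat : 5 ≤ p ∨ ∃ r ∈ aux, r % 3 = 2
  ordinary : ord = true → (GaloisRepAdic.ofResidualGaloisRep ρbar).IsOrdinaryAt p
  not_flat : ord = true → ¬ (GaloisRepAdic.ofResidualGaloisRep ρbar).IsFlatAt p
  charpoly_frob : ∀ l : ℕ, l.Prime → l ≠ p → l ∉ U →
    ∀ A : ValuationSubring (AlgebraicClosure ℚ), A.LiesOverPrime l →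
      ∀ σ : GQ, A.IsFrobeniusAt σ l → LinearMap.charpoly (ρbar.ρ σ) = Polynomial.X ^ 2 -
        Polynomial.C (residue O (a l)) * Polynomial.X + Polynomial.C ((l : ResidueField O))
  /-- `O` carries a system of eigenvalues of level `N` lifting the residual one. -/
  point : ∀ S' : Finset ℕ, S ⊆ S' → ∃ χ : CuspForm.heckeAlgebra N 2 (↑S' : Set ℕ) →+* O,
    ∀ (l : ℕ) (hl : l.Prime) (hlN : ¬ l ∣ N) (hlS : l ∉ (↑S' : Set ℕ)),
      residue O (χ (CuspForm.heckeAlgebra.T hl hlN hlS)) = residue O (a l)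

/-- A lift of `ρbar` to a finite local `O`-algebra generated by the traces. -/
structure Lift (ρbar : ResidualGaloisRep (ResidueField O)) : Type 1 where
  R : Type
  [commRing : CommRing R]
  [isLocalRing : IsLocalRing R]
  [algebra : Algebra O R]
  [isLocalHom : IsLocalHom (algebraMap O R)]
  [isNoetherian : IsNoetherianRing R]
  [isComplete : IsAdicComplete (maximalIdeal R) R]
  [finite : Module.Finite O R]
  residue_surjective : Function.Surjective (residue R ∘ algebraMap O R)
  ρ : GaloisRepAdic R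
  residual : ρ.residual.IsEquiv (ρbar.baseChangeAlong (ResidueField.map (algebraMap O R)))
  adjoin_trace : Algebra.adjoin O (Set.range ρ.trace) = ⊤
  det_cyclotomic : ρ.DetIsCyclotomic p

attribute [instance] Lift.commRing Lift.isLocalRing Lift.algebra Lift.isLocalHom
  Lift.isNoetherian Lift.isComplete Lift.finite

variable {p O} {ρbar : ResidualGaloisRep (ResidueField O)}

namespace Lift

/-- An algebra map compatible with the traces. -/
def IsHom (X Y : Lift p O ρbar) (σ : X.R →ₐ[O] Y.R) : Prop :=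
  ∀ g : GQ, σ (X.ρ.trace g) = Y.ρ.trace g

/-- The local conditions: unramified outside `Ram` and `p`, unipotent on inertia at `U`, and flat
or ordinary at `p`. -/
structure Cond (X : Lift p O ρbar) (Ram U : Finset ℕ) (ord : Bool) : Prop where
  unramified : ∀ l : ℕ, l.Prime → l ≠ p → l ∉ Ram → X.ρ.IsUnramifiedAt l
  unipotent : ∀ l ∈ U, X.ρ.IsUnipotentOnInertiaAt l
  flat : ord = false → X.ρ.IsFlatAt p
  ordinary : ord = true → X.ρ.IsOrdinaryAt p

/-- The value at a point of the trace of every Frobenius element at `l` is `t`. -/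
def HasFrobTrace (X : Lift p O ρbar) (g : X.R →ₐ[O] O) (l : ℕ) (t : O) : Prop :=
  ∀ A : ValuationSubring (AlgebraicClosure ℚ), A.LiesOverPrime l →
    ∀ σ : GQ, A.IsFrobeniusAt σ l → g (X.ρ.trace σ) = t

/-- At the point `g` the unramified quotient at `p` has Frobenius `α`. -/
def HasUnitRoot (X : Lift p O ρbar) (g : X.R →ₐ[O] O) (α : O) : Prop :=
  ∀ P : ValuationSubring (AlgebraicClosure ℚ), P.LiesOverPrime p →
    ∃ r : GQ →* Deform.Mat2 X.R, Deform.HasMatrix X.ρ r ∧
      (∀ σ ∈ P.decompositionSubgroup ℚ, g (r σ 1 0) = 0) ∧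
      (∀ σ ∈ P.inertiaSubgroupIn ℚ, g (r σ 1 1) = 1) ∧
      ∀ σ : GQ, P.IsFrobeniusAt σ p → g (r σ 1 1) = α

end Lift

variable (p O) in
/-- A lift acting faithfully on a lattice whose points occur in weight two at level `N`. -/
structure Sys (ρbar : ResidualGaloisRep (ResidueField O)) (N : ℕ) [NeZero N] (S : Finset ℕ) : Type 1 where
  X : Lift p O ρbar
  M : Type
  [addCommGroup : AddCommGroup M]
  [module : Module O M]
  [moduleR : Module X.R M]
  [tower : IsScalarTower O X.R M]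
  [moduleFinite : Module.Finite O M]
  [moduleFree : Module.Free O M]
  faithful : Module.annihilator X.R M = ⊥
  sep : ∀ g : X.R →ₐ[O] O, ∃ r : X.R, g r ≠ 0 ∧ ∀ x : X.R, g x = 0 → r * x = 0
  occurs : ∀ g : X.R →ₐ[O] O, ∃ θ : CuspForm.heckeAlgebra N 2 (↑S : Set ℕ) →+* O,
    ∀ (l : ℕ) (hl : l.Prime) (hlN : ¬ l ∣ N) (hlS : l ∉ (↑S : Set ℕ))
      (A : ValuationSubring (AlgebraicClosure ℚ)), A.LiesOverPrime l →
      ∀ σ : GQ, A.IsFrobeniusAt σ l →
        θ (CuspForm.heckeAlgebra.T hl hlN hlS) = g (X.ρ.trace σ)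

attribute [instance] Sys.addCommGroup Sys.module Sys.moduleR Sys.tower Sys.moduleFinite
  Sys.moduleFree

/-- The system is the residual part of the lattice of level `N`, traces of Frobenius acting as the
Hecke operators. -/
def Sys.IsLattice {N : ℕ} [NeZero N] {S : Finset ℕ} (Y : Sys p O ρbar N S) (a : ℕ → O) : Prop :=
  ∃ e : Y.M ≃ₗ[O] Auto.latLoc N (1 : (ZMod N)ˣ →* Unit) O S a,
    ∀ (i : Auto.PrimeOff N S) (A : ValuationSubring (AlgebraicClosure ℚ)),
      A.LiesOverPrime ((i.1 : Nat.Primes) : ℕ) → ∀ σ : GQ,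
        A.IsFrobeniusAt σ ((i.1 : Nat.Primes) : ℕ) → ∀ x : Y.M,
          ((e (Y.X.ρ.trace σ • x) : Auto.latLoc N (1 : (ZMod N)ˣ →* Unit) O S a) :
              Auto.Lat N (1 : (ZMod N)ˣ →* Unit) O) =
            Auto.latT N 1 O i.1 (e x : Auto.latLoc N (1 : (ZMod N)ˣ →* Unit) O S a)

/-- The factor by which raising at `q` enlarges the congruence module. -/
def gammaQ (q : ℕ) (t : O) : O := ((q : O) - 1) * (((q : O) + 1) ^ 2 - t ^ 2)

end Fermat.Agent.R59
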