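/-
S59, unit T: two lifts generate a lift inside their product.

The pair of traces is a pseudo-representation into the trace algebra of the product (`Glue/Rep`);
each condition descends, as the two projections are jointly injective.
-/
import Fermat.Agent.R59.Glue.Rep
import Fermat.Agent.R59.Glue.Flat

set_option autoImplicit false
set_option linter.unusedSectionVars false
set_option linter.style.haveILetI false

open IsLocalRing
open Fermat.Agent.Galois (GQ)

namespace Fermat.Agent.R59

variable {p : ℕ} [Fact p.Prime] {O : Type} [CommRing O] [IsDomain O] [IsDiscreteValuationRing O]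
  [IsAdicComplete (maximalIdeal O) O] [Finite (ResidueField O)]
  [Algebra ℤ_[p] O] [Module.Finite ℤ_[p] O] [CharZero O]
  {ρbar : ResidualGaloisRep (ResidueField O)} {N : ℕ} [NeZero N] {U aux S : Finset ℕ} {a : ℕ → O}
  {ord : Bool}

/-- An action is trivial if its matrix is. -/
theorem hasMatrix_apply_eq_one {R : Type} [CommRing R] [IsLocalRing R] {ρ : GaloisRepAdic R}
    {r : GQ →* Deform.Mat2 R} (hr : Deform.HasMatrix ρ r) (σ : GQ) : ρ.ρ σ = 1 ↔ r σ = 1 := by
  obtain ⟨b, hb⟩ := hr
  rw [← hb σ, ← (LinearMap.toMatrix b b).injective.eq_iff, LinearMap.toMatrix_one]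

/-- The idempotent of a matrix with a quadratic identity and unit trace. -/
theorem idem_of_quad {R : Type} [CommRing R] {M : Deform.Mat2 R} (u : Rˣ) (hu : M.trace = u)
    (h : M * M = M.trace • M) :
    (u⁻¹.val • M) * (u⁻¹.val • M) = u⁻¹.val • M ∧ (u⁻¹.val • M).trace = 1 ∧
      M = u.val • (u⁻¹.val • M) ∧ ∀ X, M * X = M.trace • X → (u⁻¹.val • M) * X = X := by
  refine ⟨?_, ?_, ?_, fun X hX => ?_⟩
  · rw [smul_mul_assoc, mul_smul_comm, h, hu, smul_smul, smul_smul, mul_assoc, Units.inv_mul,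
      mul_one]
  · rw [Matrix.trace_smul, hu, smul_eq_mul, Units.inv_mul]
  · rw [smul_smul, Units.mul_inv, one_smul]
  · rw [smul_mul_assoc, hX, hu, smul_smul, Units.inv_mul, one_smul]

/-- The residue field of a lift is finite. -/
theorem finite_residueField (X : Lift p O ρbar) : Finite (ResidueField X.R) :=
  Finite.of_surjective (ResidueField.map (algebraMap O X.R)) fun x => by
    obtain ⟨a, ha⟩ := X.residue_surjective x
    exact ⟨residue O a, ha⟩

/-- The glued lift. -/
theorem exists_glue (H : Seed p O ρbar N U aux S a ord) (X Y : Lift p O ρbar) {Ram : Finset ℕ}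
    {o : Bool} (ho : o = true → (GaloisRepAdic.ofResidualGaloisRep ρbar).IsOrdinaryAt p)
    (hX : X.Cond Ram U o) (hY : Y.Cond Ram U o) :
    ∃ (Z : Lift p O ρbar) (σX : Z.R →ₐ[O] X.R) (σY : Z.R →ₐ[O] Y.R),
      Z.IsHom X σX ∧ Z.IsHom Y σY ∧
      (∀ z : Z.R, σX z = 0 → σY z = 0 → z = 0) ∧ Z.Cond Ram U o := by
  obtain ⟨iloc, ilh, inoe, icpl, ifin, hsurj, r, hc, htr, hdet, hrX, hrY, hres⟩ :=
    exists_glue_rep H.p_ne_two H.absIrr X Y
  haveI := iloc
  haveI := icpl
  have hB := Deform.hasMatrix_ofMatrix r hc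
  set φ₁ := (toFst X Y).toRingHom
  set φ₂ := (toSnd X Y).toRingHom
  have htrB : ∀ g, (((Deform.ofMatrix r hc).trace g : traceAlg X Y) : X.R × Y.R) =
      tracePair X Y g := fun g => by rw [hB.trace_eq, htr]
  have hdetB : ∀ g, LinearMap.det ((Deform.ofMatrix r hc).ρ g) =
      algebraMap O (traceAlg X Y) (algebraMap ℤ_[p] O (GalRep.cyc p g : ℤ_[p])) := fun g => by
    rw [← (trace_det_of_hasMatrix hB g).1, hdet]
  let Z : Lift p O ρbar :=
    { R := traceAlg X Y
      residue_surjective := hsurj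
      ρ := Deform.ofMatrix r hc
      residual := hres
      adjoin_trace := by
        have e : Set.range (Deform.ofMatrix r hc).trace =
            ((↑) : traceAlg X Y → X.R × Y.R) ⁻¹' Set.range (tracePair X Y) := by
          ext b
          constructor
          · rintro ⟨g, rfl⟩
            exact ⟨g, (htrB g).symm⟩
          · rintro ⟨g, hg⟩
            exact ⟨g, Subtype.ext ((htrB g).trans hg)⟩
        rw [e]
        exact Algebra.adjoin_adjoin_coe_preimage
      det_cyclotomic := by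
        refine ⟨?_, fun n σ a ha => ?_⟩
        · rw [← map_natCast (algebraMap O (traceAlg X Y))]
          exact map_nonunit _ _ H.p_mem_maximal
        · rw [hdetB]
          exact algebraMap_cyc_sub_mem n σ a ha }
  refine ⟨Z, toFst X Y, toSnd X Y, fun g => congrArg Prod.fst (htrB g),
    fun g => congrArg Prod.snd (htrB g), fun z h1 h2 => traceAlg_ext (h1.trans (map_zero _).symm)
      (h2.trans (map_zero _).symm), ?_⟩
  refine ⟨fun l hl hlp hlR P hP σ hσ => ?_, fun l hl P hP σ hσ => ?_, fun ho' => ?_,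
    fun ho' => GalRep.Ordinary.isOrdinaryAt_of_idem hB fun P hP => ?_⟩
  · rw [hasMatrix_apply_eq_one hB]
    refine mat_ext ?_ ?_
    · rw [Matrix.map_one _ (map_zero _) (map_one _)]
      exact (hasMatrix_apply_eq_one hrX σ).mp (hX.unramified l hl hlp hlR P hP σ hσ)
    · rw [Matrix.map_one _ (map_zero _) (map_one _)]
      exact (hasMatrix_apply_eq_one hrY σ).mp (hY.unramified l hl hlp hlR P hP σ hσ)
  · rw [← (trace_det_of_hasMatrix hB σ).2]
    refine Polynomial.ext fun n => traceAlg_ext ?_ ?_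
    · show φ₁ _ = φ₁ _
      rw [← Polynomial.coeff_map, ← Polynomial.coeff_map, ← Matrix.charpoly_map]
      have h : ((r σ).map φ₁).charpoly = (Polynomial.X - 1) ^ 2 :=
        (trace_det_of_hasMatrix hrX σ).2.trans (hX.unipotent l hl P hP σ hσ)
      rw [h]
      simp
    · show φ₂ _ = φ₂ _
      rw [← Polynomial.coeff_map, ← Polynomial.coeff_map, ← Matrix.charpoly_map]
      have h : ((r σ).map φ₂).charpoly = (Polynomial.X - 1) ^ 2 :=
        (trace_det_of_hasMatrix hrY σ).2.trans (hY.unipotent l hl P hP σ hσ)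
      rw [h]
      simp
  · refine isFlatAt_of_joint φ₁ φ₂ hc hrX hrY (finite_residueField Z) (fun I hI => ?_)
      (hX.flat ho') (hY.flat ho')
    haveI := inoe
    haveI : Finite (ResidueField (traceAlg X Y)) := finite_residueField Z
    obtain ⟨a', ha'⟩ := IsLocalRing.finite_quotient_iff.mp hI
    obtain ⟨N', hN'⟩ := exists_level (traceAlg X Y) a'
    haveI := finite_residueField X
    haveI := finite_residueField Y
    refine ⟨maximalIdeal X.R ^ N', maximalIdeal Y.R ^ N', IsLocalRing.finite_quotient_iff.mpr ⟨N', le_rfl⟩,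
      IsLocalRing.finite_quotient_iff.mpr ⟨N', le_rfl⟩, fun b hb => ha' (hN' b hb.1 hb.2)⟩
  · obtain ⟨σ₀, hσ₀, h2⟩ := exists_inertia_two H.p_ne_two hP Z.det_cyclotomic
    set M := r σ₀ - 1 with hM
    have hm₁ : ∀ A : Deform.Mat2 (traceAlg X Y), φ₁ A.trace = (φ₁.mapMatrix A).trace :=
      fun A => by simp [Matrix.trace_fin_two]
    have hm₂ : ∀ A : Deform.Mat2 (traceAlg X Y), φ₂ A.trace = (φ₂.mapMatrix A).trace :=
      fun A => by simp [Matrix.trace_fin_two]
    have hsub₁ : ∀ σ, φ₁.mapMatrix (r σ - 1) = ((Deform.mapHom φ₁).comp r) σ - 1 := fun σ => by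
      rw [map_sub, map_one]
      rfl
    have hsub₂ : ∀ σ, φ₂.mapMatrix (r σ - 1) = ((Deform.mapHom φ₂).comp r) σ - 1 := fun σ => by
      rw [map_sub, map_one]
      rfl
    have hsm₁ : ∀ (c : traceAlg X Y) (A : Deform.Mat2 (traceAlg X Y)),
        φ₁.mapMatrix (c • A) = φ₁ c • φ₁.mapMatrix A := fun c A => by ext i j; simp
    have hsm₂ : ∀ (c : traceAlg X Y) (A : Deform.Mat2 (traceAlg X Y)),
        φ₂.mapMatrix (c • A) = φ₂ c • φ₂.mapMatrix A := fun c A => by ext i j; simp
    have hquad : ∀ τ ∈ P.inertiaSubgroupIn ℚ,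
        M.trace = (r σ₀).det - 1 ∧ M * (r τ - 1) = M.trace • (r τ - 1) := by
      intro τ hτ
      obtain ⟨a1, a2⟩ := inertia_quad hrX (hX.ordinary ho') hP hσ₀ hτ
      obtain ⟨b1, b2⟩ := inertia_quad hrY (hY.ordinary ho') hP hσ₀ hτ
      rw [← hsub₁, ← hm₁] at a1 a2
      rw [← hsub₂, ← hm₂] at b1 b2
      refine ⟨traceAlg_ext ?_ ?_, mat_ext ?_ ?_⟩
      · show φ₁ _ = φ₁ _
        rw [map_sub, RingHom.map_det, map_one]
        exact a1
      · show φ₂ _ = φ₂ _
        rw [map_sub, RingHom.map_det, map_one]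
        exact b1
      · show φ₁.mapMatrix _ = φ₁.mapMatrix _
        rw [map_mul, hsm₁, hsub₁ τ, a2]
      · show φ₂.mapMatrix _ = φ₂.mapMatrix _
        rw [map_mul, hsm₂, hsub₂ τ, b2]
    have ht : IsUnit M.trace := by
      rw [(hquad σ₀ hσ₀).1]
      refine notMem_maximalIdeal.mp fun hmem => ?_
      have h2' : (r σ₀).det - 2 ∈ maximalIdeal (traceAlg X Y) := by
        rw [(trace_det_of_hasMatrix hB σ₀).1]
        exact h2
      have := sub_mem hmem h2'
      rw [show ((r σ₀).det - 1) - ((r σ₀).det - 2) = 1 by ring] at this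
      exact this isUnit_one
    obtain ⟨u, hu⟩ := ht
    obtain ⟨e1, e2, e3, e4⟩ := idem_of_quad u hu.symm (hquad σ₀ hσ₀).2
    exact ⟨σ₀, hσ₀, u, u⁻¹.val • M, u.isUnit, e1, e2, e3, fun τ hτ => e4 _ (hquad τ hτ).2⟩

end Fermat.Agent.R59
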