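/-
S59, unit B: for a semistable `W` and `p ∈ {3, 5}`, an irreducible `W[p]` stays absolutely
irreducible on every subgroup of index at most two.
-/
import Fermat.Agent.R59.ThreeTW.Group
import Fermat.Agent.R59.TateW.Bundle
import Fermat.Agent.R59.Defs
import Fermat.Agent.EC.DetCyclo
import Fermat.Agent.EC.Unramified
import Fermat.Agent.ConductorMatch.Irred
import Fermat.Agent.ConductorMatch.Invol
import Fermat.Agent.Mazur3.Descent.Tame
import Fermat.Agent.Mazur3.Descent.Trace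

set_option autoImplicit false
set_option maxHeartbeats 300000

noncomputable section

open Matrix WeierstrassCurve
open Fermat.Agent.Galois (GQ)
open Fermat.Agent.ConductorMatch (torsRep Pts)
open Fermat.Agent.Deform (Mat2 RHasMatrix)
open WeierstrassCurve.Affine.Point

namespace Fermat.Agent.R59

open scoped WeierstrassCurve.Affine

/-- Complex conjugation. -/
theorem exists_involution : ∃ c : GQ, c * c = 1 ∧ c ≠ 1 := by
  obtain ⟨i, hi⟩ := IsAlgClosed.exists_pow_nat_eq (-1 : AlgebraicClosure ℚ) (by norm_num : 0 < 2)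
  obtain ⟨e⟩ : Nonempty (AlgebraicClosure ℚ →ₐ[ℚ] ℂ) := ⟨IsAlgClosed.lift⟩
  let cc : ℂ →ₐ[ℚ] ℂ := (Complex.conjAe.restrictScalars ℚ).toAlgHom
  haveI : Normal ℚ (AlgebraicClosure ℚ) := IsGalois.to_normal
  letI : Algebra (AlgebraicClosure ℚ) ℂ := e.toRingHom.toAlgebra
  haveI : IsScalarTower ℚ (AlgebraicClosure ℚ) ℂ :=
    IsScalarTower.of_algebraMap_eq fun x => (e.commutes x).symm
  let c := AlgHom.restrictNormal' cc (AlgebraicClosure ℚ)
  have hce : ∀ x, e (c x) = starRingEnd ℂ (e x) := fun x =>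
    AlgHom.restrictNormal_commutes cc (AlgebraicClosure ℚ) x
  refine ⟨c, AlgEquiv.ext fun x => e.injective ?_, fun h => ?_⟩
  · show e ((c * c : GQ) x) = e ((1 : GQ) x)
    rw [AlgEquiv.mul_apply, hce, hce, Complex.conj_conj, AlgEquiv.one_apply]
  · have h1 := hce i
    rw [h, AlgEquiv.one_apply, eq_comm, Complex.conj_eq_iff_im] at h1
    have h2 : e i ^ 2 = -1 := by rw [← map_pow, hi, map_neg, map_one]
    have h3 := congrArg Complex.re h2
    simp [pow_two, h1] at h3
    nlinarith [mul_self_nonneg (e i).re]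

/-- Change of basis for the absence of eigenlines. -/
theorem eq_zero_of_conj {k K V : Type*} [Field k] [Field K] [AddCommGroup V] [Module k V]
    (b b' : Module.Basis (Fin 2) k V) (ρ : GQ →* Module.End k V) (ψ : k →+* K) (H : Subgroup GQ)
    (h : ∀ w : Fin 2 → K, (∀ σ ∈ H, ∃ c : K,
      ThreeTW.mapRep ψ ((LinearMap.toMatrixAlgEquiv b').toMonoidHom.comp ρ) σ *ᵥ w = c • w) → w = 0)
    (v : Fin 2 → K) (hv : ∀ σ ∈ H, ∃ c : K,
      ((LinearMap.toMatrixAlgEquiv b (ρ σ)).map ψ) *ᵥ v = c • v) : v = 0 := by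
  have h1 : b.toMatrix b' * b'.toMatrix b = 1 := b.toMatrix_mul_toMatrix_flip b'
  have key : ∀ σ, LinearMap.toMatrixAlgEquiv b' (ρ σ) * b'.toMatrix b =
      b'.toMatrix b * LinearMap.toMatrixAlgEquiv b (ρ σ) := fun σ => by
    show LinearMap.toMatrix b' b' (ρ σ) * b'.toMatrix b = b'.toMatrix b * LinearMap.toMatrix b b (ρ σ)
    rw [linearMap_toMatrix_mul_basis_toMatrix, basis_toMatrix_mul_linearMap_toMatrix]
  have hw := h ((b'.toMatrix b).map ψ *ᵥ v) fun σ hσ => by
    obtain ⟨c, hc⟩ := hv σ hσ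
    refine ⟨c, ?_⟩
    show (LinearMap.toMatrixAlgEquiv b' (ρ σ)).map ψ *ᵥ _ = _
    rw [Matrix.mulVec_mulVec, ← Matrix.map_mul, key, Matrix.map_mul, ← Matrix.mulVec_mulVec, hc,
      Matrix.mulVec_smul]
  have e := congrArg ((b.toMatrix b').map ψ *ᵥ ·) hw
  simp only [Matrix.mulVec_mulVec, ← Matrix.map_mul, h1, Matrix.mulVec_zero] at e
  rwa [Matrix.map_one _ (map_zero ψ) (map_one ψ), Matrix.one_mulVec] at e

/-- A matrix of determinant one with a fixed vector is unipotent. -/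
theorem sub_one_sq_eq_zero {k : Type*} [Field k] {M : Matrix (Fin 2) (Fin 2) k} (hd : M.det = 1)
    {v : Fin 2 → k} (hv : v ≠ 0) (hMv : M *ᵥ v = v) : (M - 1) * (M - 1) = 0 := by
  have hd1 : (M - 1).det = 0 := Matrix.exists_mulVec_eq_zero_iff.mp
    ⟨v, hv, by rw [Matrix.sub_mulVec, hMv, Matrix.one_mulVec, sub_self]⟩
  rw [Matrix.det_fin_two] at hd hd1
  simp [Matrix.sub_apply] at hd1
  have ht : M 0 0 + M 1 1 = 2 := by linear_combination hd - hd1
  ext i j
  fin_cases i <;> fin_cases j <;>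
    simp [Matrix.mul_apply, Fin.sum_univ_two, Matrix.sub_apply]
  · linear_combination M 0 0 * ht - hd
  · linear_combination M 0 1 * ht
  · linear_combination M 1 0 * ht
  · linear_combination M 1 1 * ht - hd

theorem toMatrixAlgEquiv_mulVec {k V : Type*} [Field k] [AddCommGroup V] [Module k V]
    (b : Module.Basis (Fin 2) k V) (f : Module.End k V) (x : V) :
    LinearMap.toMatrixAlgEquiv b f *ᵥ b.equivFun x = b.equivFun (f x) :=
  LinearMap.toMatrix_mulVec_repr b b f x

/-- The finite image of a matrix representation. -/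
theorem exists_finite_image {p : ℕ} [Fact p.Prime] (R : GQ →* Mat2 (ZMod p)) :
    ∃ (Γ : Type) (_ : Group Γ) (_ : Finite Γ) (π : GQ →* Γ) (R' : Γ →* Mat2 (ZMod p)),
      Function.Surjective π ∧ Function.Injective R' ∧ π.ker = R.ker ∧ ∀ g, R' (π g) = R g := by
  haveI : Finite (Mat2 (ZMod p)) := inferInstance
  set u := R.toHomUnits with hu
  haveI hfin : Finite u.range :=
    Finite.of_injective (fun x : u.range => ((x : (Mat2 (ZMod p))ˣ) : Mat2 (ZMod p)))
      fun x y h => Subtype.ext (Units.ext h)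
  refine ⟨u.range, inferInstance, hfin, u.rangeRestrict, (Units.coeHom _).comp u.range.subtype,
    u.rangeRestrict_surjective, fun x y h => Subtype.ext (Units.ext h), ?_, fun g => ?_⟩
  · ext g
    rw [MonoidHom.ker_rangeRestrict, MonoidHom.mem_ker, MonoidHom.mem_ker, Units.ext_iff,
      hu, MonoidHom.coe_toHomUnits, Units.val_one]
  · exact MonoidHom.coe_toHomUnits R g

/-- Tame inertia has commutative image when the unipotent elements act trivially. -/
theorem inertia_comm {p : ℕ} [Fact p.Prime] {k : Type} [Field k] [Finite k] [CharP k p] (R : GQ →* Mat2 k)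
    (L : IntermediateField ℚ (AlgebraicClosure ℚ)) [FiniteDimensional ℚ L]
    (hL : ∀ σ : GQ, (∀ x ∈ L, σ x = x) → R σ = 1)
    (hunip : ∀ σ, (R σ - 1) * (R σ - 1) = 0 → R σ = 1)
    {A : ValuationSubring (AlgebraicClosure ℚ)} (hA : A.LiesOverPrime p) {x y : GQ}
    (hx : x ∈ A.inertiaSubgroupIn ℚ) (hy : y ∈ A.inertiaSubgroupIn ℚ) :
    R x * R y = R y * R x := by
  have hp' : p.Prime := Fact.out
  set F := IntermediateField.fixedField R.ker with hF
  have hle : L.fixingSubgroup ≤ R.ker := fun σ hσ =>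
    MonoidHom.mem_ker.2 (hL σ ((IntermediateField.mem_fixingSubgroup_iff _ _).1 hσ))
  have hopen : IsOpen (R.ker : Set GQ) :=
    Subgroup.isOpen_mono hle (IntermediateField.fixingSubgroup_isOpen L)
  have hFH : F.fixingSubgroup = R.ker :=
    InfiniteGalois.fixingSubgroup_fixedField ⟨R.ker, Subgroup.isClosed_of_isOpen _ hopen⟩
  haveI : IsGalois ℚ F := (InfiniteGalois.normal_iff_isGalois F).1 (by rw [hFH]; infer_instance)
  haveI : FiniteDimensional ℚ F := (InfiniteGalois.isOpen_iff_finite F).1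
    (by rw [hFH]; exact hopen)
  obtain ⟨a, ha, rfl⟩ := hx
  obtain ⟨b, hb, rfl⟩ := hy
  set w : A.decompositionSubgroup ℚ := a * b * (b * a)⁻¹ with hw
  have hwI : w ∈ A.inertiaSubgroup ℚ := mul_mem (mul_mem ha hb) (inv_mem (mul_mem hb ha))
  have htc : ∀ (z : AlgebraicClosure ℚ) (hz : z ≠ 0), Galois.tameChar w z hz = 1 := by
    intro z hz
    have e1 : Galois.tameChar (a * b) z hz = Galois.tameChar (b * a) z hz := by
      rw [Galois.tameChar_mul ha, Galois.tameChar_mul hb, mul_comm]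
    have e2 := Galois.tameChar_mul (τ' := b * a) hwI z hz
    rw [show w * (b * a) = a * b by rw [hw, inv_mul_cancel_right], e1] at e2
    have e3 : Galois.tameChar (b * a) z hz ≠ 0 := by
      intro h0
      have h := Galois.tameChar_mul (τ' := (b * a)⁻¹) (mul_mem hb ha) z hz
      rw [mul_inv_cancel, h0, zero_mul] at h
      have h1 := Galois.tameChar_pow ha z hz 0
      rw [pow_zero, pow_zero, h] at h1
      exact zero_ne_one h1
    exact (mul_eq_right₀ e3).mp e2.symm
  obtain ⟨j, hj⟩ :=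
    Mazur3.exists_pow_fix_of_tameChar_eq_one_on hp' hA hwI F fun z hz _ => htc z hz
  have hker : (w : GQ) ^ p ^ j ∈ R.ker := by
    rw [← hFH, IntermediateField.mem_fixingSubgroup_iff]
    exact hj
  have h1 : R (w : GQ) = 1 :=
    hunip _ (FlatBound.mat_sub_one_sq_of_pow ((map_pow R _ _).symm.trans (MonoidHom.mem_ker.mp hker)))
  calc R a * R b = R (w * (b * a) : A.decompositionSubgroup ℚ) := by
        rw [hw, inv_mul_cancel_right, Subgroup.coe_mul, map_mul]
    _ = R b * R a := by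
        rw [Subgroup.coe_mul, map_mul, h1, one_mul, Subgroup.coe_mul, map_mul]

/-- Minkowski for a homomorphism to a commutative group ramified at one place only. -/
theorem eq_one_of_abelian {p : ℕ} (hp : p.Prime) {B : Type*} [CommGroup B] (φ : GQ →* B)
    (L : IntermediateField ℚ (AlgebraicClosure ℚ)) [FiniteDimensional ℚ L]
    (hL : ∀ σ : GQ, (∀ x ∈ L, σ x = x) → φ σ = 1)
    {A : ValuationSubring (AlgebraicClosure ℚ)} (hA : A.LiesOverPrime p)
    (hAφ : ∀ σ ∈ A.inertiaSubgroupIn ℚ, φ σ = 1)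
    (h : ∀ q : ℕ, q.Prime → q ≠ p → ∀ A' : ValuationSubring (AlgebraicClosure ℚ),
      A'.LiesOverPrime q → ∀ σ ∈ A'.inertiaSubgroupIn ℚ, φ σ = 1) : φ = 1 := by
  refine EC.eq_one_of_unramified φ L hL fun q hq A' hA' σ hσ => ?_
  by_cases hqp : q = p
  · subst hqp
    obtain ⟨g, rfl⟩ := Galois.exists_smul_eq_of_liesOverPrime hq hA hA'
    have h1 := hAφ _ (Mazur3.conj_mem_inertia hσ)
    rw [map_mul, map_mul, map_inv, mul_comm, ← mul_assoc, mul_inv_cancel, one_mul] at h1
    exact h1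
  · exact h q hq hqp A' hA' σ hσ

/-- **The local-to-global argument in matrices.** -/
theorem no_line_of_local {p : ℕ} [Fact p.Prime] (hp : p = 3 ∨ p = 5) (R : GQ →* Mat2 (ZMod p))
    (L : IntermediateField ℚ (AlgebraicClosure ℚ)) [FiniteDimensional ℚ L]
    (hL : ∀ σ : GQ, (∀ x ∈ L, σ x = x) → R σ = 1)
    {c : GQ} (hc : R c = !![1, 0; 0, -1])
    (hno : ∀ v : Fin 2 → ZMod p, (∀ g, ∃ a : ZMod p, R g *ᵥ v = a • v) → v = 0)
    (huni : ∀ q : ℕ, q.Prime → q ≠ p → ∀ A : ValuationSubring (AlgebraicClosure ℚ),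
      A.LiesOverPrime q → ∀ σ ∈ A.inertiaSubgroupIn ℚ, (R σ - 1) * (R σ - 1) = 0)
    (hdet5 : p = 5 → ∃ g, (R g).det = 2)
    {K : Type*} [Field K] (ψ : ZMod p →+* K) (H : Subgroup GQ) (hH : H = ⊤ ∨ H.index = 2)
    (v : Fin 2 → K) (hv : ∀ σ ∈ H, ∃ a : K, ThreeTW.mapRep ψ R σ *ᵥ v = a • v) : v = 0 := by
  classical
  have hp' : p.Prime := Fact.out
  have hp2 : p ≠ 2 := by rcases hp with rfl | rfl <;> omega
  have h2 : (2 : ZMod p) ≠ 0 := fun h => hp2 ((Nat.prime_dvd_prime_iff_eq hp' Nat.prime_two).mp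
    ((ZMod.natCast_eq_zero_iff 2 p).mp (by exact_mod_cast h)))
  have htop := ThreeTW.eq_zero_of_eigen_top ψ R h2 hc hno
  rcases hH with rfl | hH
  · exact htop v fun g => hv g (Subgroup.mem_top g)
  by_contra hv0
  obtain ⟨T⟩ := ThreeTW.exists_torus ψ R hH hv0 hv htop
  obtain ⟨Γ, _, _, π, R', hsurj, hinj, hkerπ, hR'⟩ := exists_finite_image R
  have hker : π.ker ≤ H := fun g hg => by
    rw [hkerπ] at hg
    by_contra h
    obtain ⟨h00, h11⟩ := T.antidiag g h
    have ht := T.trace_eq g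
    rw [MonoidHom.mem_ker.mp hg, Matrix.trace_one, Fintype.card_fin, Matrix.trace_fin_two, h00,
      h11, add_zero] at ht
    exact h2 (ψ.injective (by rw [_root_.map_zero]; exact_mod_cast ht.symm))
  have hH' : (H.map π).index = 2 := by
    rw [Subgroup.index_map_eq _ hsurj hker, hH]
  have hmap : ∀ g, ThreeTW.mapRep ψ R' (π g) = ThreeTW.mapRep ψ R g := fun g => by
    rw [ThreeTW.mapRep_apply, ThreeTW.mapRep_apply, hR']
  have hv' : ∀ x ∈ H.map π, ∃ a : K, ThreeTW.mapRep ψ R' x *ᵥ v = a • v := by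
    rintro _ ⟨h, hh, rfl⟩
    rw [hmap]
    exact hv h hh
  have htop' : ∀ w : Fin 2 → K, (∀ g, ∃ a : K, ThreeTW.mapRep ψ R' g *ᵥ w = a • w) → w = 0 :=
    fun w hw => htop w fun g => by rw [← hmap]; exact hw (π g)
  obtain ⟨T'⟩ := ThreeTW.exists_torus ψ R' hH' hv0 hv' htop'
  have hunip : ∀ σ, (R σ - 1) * (R σ - 1) = 0 → R σ = 1 := fun σ hσ => by
    rw [← hR'] at hσ ⊢
    exact T'.eq_one_of_unipotent hp2 hσ
  have hπ1 : ∀ σ, R σ = 1 → π σ = 1 := fun σ hσ =>
    hinj (by rw [hR', hσ, map_one])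
  obtain ⟨A, hA⟩ := Galois.exists_liesOverPrime hp'
  refine T'.false_of_local hH' hp hinj (c := π c) ((hR' c).trans hc)
    (fun w hw => hno w fun g => by rw [← hR']; exact hw (π g))
    ((A.inertiaSubgroupIn ℚ).map π) ?_ (fun B _ χ hχ => ?_)
    (fun h5 => ?_)
  · rintro _ ⟨x, hx, rfl⟩ _ ⟨y, hy, rfl⟩
    refine hinj ?_
    rw [map_mul, map_mul, hR', hR']
    exact inertia_comm R L hL hunip hA hx hy
  · have hφ := eq_one_of_abelian hp' (χ.comp π) L
      (fun σ hσ => by rw [MonoidHom.comp_apply, hπ1 σ (hL σ hσ), map_one])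
      hA (fun σ hσ => hχ _ (Subgroup.mem_map_of_mem π hσ))
      (fun q hq hqp A' hA' σ hσ => by
        rw [MonoidHom.comp_apply, hπ1 σ (hunip σ (huni q hq hqp A' hA' σ hσ)), map_one])
    refine MonoidHom.ext fun x => ?_
    obtain ⟨g, rfl⟩ := hsurj x
    exact DFunLike.congr_fun hφ g
  · obtain ⟨g, hg⟩ := hdet5 h5
    exact ⟨π g, by rw [hR']; exact hg⟩

variable (W : WeierstrassCurve ℤ) {p : ℕ} [Fact p.Prime]

/-- **No eigenline on a subgroup of index at most two.** -/
theorem torsRep_no_line (hΔ : W.Δ ≠ 0) (hW : W.IsSemistableModel) (hp : p = 3 ∨ p = 5)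
    (hirr : W.ModRepIsIrreducible p)
    (b : Module.Basis (Fin 2) (ZMod p) (Submodule.torsionBy ℤ (Pts W) (p : ℤ)))
    {K : Type*} [Field K] (ψ : ZMod p →+* K) (H : Subgroup GQ) (hH : H = ⊤ ∨ H.index = 2)
    (v : Fin 2 → K)
    (hv : ∀ σ ∈ H, ∃ c : K,
      ((LinearMap.toMatrixAlgEquiv b (torsRep W p σ)).map ψ) *ᵥ v = c • v) : v = 0 := by
  classical
  haveI := ConductorMatch.isElliptic_pts W hΔ
  have hp' : p.Prime := Fact.out
  have hp2 : p ≠ 2 := by rcases hp with rfl | rfl <;> omega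
  have h2 : (2 : ZMod p) ≠ 0 := fun h => hp2 ((Nat.prime_dvd_prime_iff_eq hp' Nat.prime_two).mp
    ((ZMod.natCast_eq_zero_iff 2 p).mp (by exact_mod_cast h)))
  have hdetσ : ∀ σ : GQ, LinearMap.det (torsRep W p σ) =
      PadicInt.toZMod (GalRep.cyc p σ : ℤ_[p]) := EC.det_torsion_eq_cyc W p hp2 hΔ
  have hrk := EC.finrank_torsionBy (K := AlgebraicClosure ℚ) (W.map (Int.castRingHom ℚ)).toAffine p
  haveI : Module.Finite (ZMod p) (Submodule.torsionBy ℤ (Pts W) (p : ℤ)) :=
    Module.finite_of_finrank_eq_succ hrk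
  -- complex conjugation
  obtain ⟨c, hc, hc1⟩ := exists_involution
  have hdc : LinearMap.det (torsRep W p c) = -1 := by
    rw [hdetσ, ConductorMatch.cyc_invol hc hc1 p hp2, Units.val_neg, Units.val_one, map_neg, map_one]
  obtain ⟨be, hb0, hb1⟩ := ConductorMatch.exists_eigenbasis h2 hrk (torsRep W p c)
    (by rw [← map_mul, hc, map_one]) hdc
  set R : GQ →* Mat2 (ZMod p) :=
    (LinearMap.toMatrixAlgEquiv be).toMonoidHom.comp (torsRep W p) with hR
  have hRc : R c = !![1, 0; 0, -1] := by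
    ext i j
    show LinearMap.toMatrixAlgEquiv be (torsRep W p c) i j = _
    rw [LinearMap.toMatrixAlgEquiv_apply]
    fin_cases i <;> fin_cases j <;> simp [hb0, hb1]
  have hno : ∀ w : Fin 2 → ZMod p, (∀ g, ∃ a : ZMod p, R g *ᵥ w = a • w) → w = 0 := by
    intro w hw
    set x := be.equivFun.symm w with hx
    have hstab : Affine.Point.IsGaloisStable (K := AlgebraicClosure ℚ) ℚ
        (W' := (W.map (Int.castRingHom ℚ)).toAffine) (ZMod p ∙ x) := fun σ y hy => by
      obtain ⟨a, rfl⟩ := Submodule.mem_span_singleton.mp hy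
      obtain ⟨d, hd⟩ := hw σ
      have e : torsRep W p σ x = d • x := be.equivFun.injective (by
        rw [← toMatrixAlgEquiv_mulVec, map_smul, hx, LinearEquiv.apply_symm_apply]; exact hd)
      rw [← galoisRepModuleEnd_apply, show galoisRepModuleEnd (K := AlgebraicClosure ℚ) ℚ
        (W.map (Int.castRingHom ℚ)).toAffine p σ (a • x) = a • torsRep W p σ x from map_smul _ _ _, e]
      exact Submodule.smul_mem _ _ (Submodule.smul_mem _ _ (Submodule.mem_span_singleton_self x))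
    rcases hirr.2 _ hstab with h | h
    · rw [Submodule.span_singleton_eq_bot] at h
      rw [← LinearEquiv.apply_symm_apply be.equivFun w, ← hx, h, _root_.map_zero]
    · exfalso
      have h' := congrArg (fun N : Submodule (ZMod p) _ => Module.finrank (ZMod p) N) h
      simp only [finrank_top] at h'
      have := finrank_span_le_card (R := ZMod p) ({x} : Set _)
      rw [Set.toFinset_singleton, Finset.card_singleton, h'] at this
      have e2 : Module.finrank (ZMod p) (Submodule.torsionBy ℤ (Pts W) (p : ℤ)) = 2 := hrk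
      omega
  obtain ⟨L, hL, hfix⟩ := EC.exists_finite_level (K := AlgebraicClosure ℚ) ℚ
    (W.map (Int.castRingHom ℚ)).toAffine p hp'.one_le
  have hLR : ∀ σ : GQ, (∀ x ∈ L, σ x = x) → R σ = 1 := fun σ hσ => by
    show LinearMap.toMatrixAlgEquiv be (torsRep W p σ) = 1
    rw [show torsRep W p σ = 1 from LinearMap.ext fun P => hfix σ hσ P, map_one]
  have hdR : ∀ σ, (R σ).det = LinearMap.det (torsRep W p σ) := fun σ =>
    LinearMap.det_toMatrix be _
  refine eq_zero_of_conj b be (torsRep W p) ψ H (fun w hw => ?_) v hv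
  refine no_line_of_local hp R L hLR hRc hno (fun q hq hqp A hA σ hσ => ?_) ?_ ψ H hH w hw
  · obtain ⟨P, hP, hfixP⟩ := ConductorMatch.exists_inertia_fixed W hq hΔ (hW q hq) hp' hp2
      (Ne.symm hqp) one_pos hA
    rw [pow_one] at hP
    set P' : Submodule.torsionBy ℤ (Pts W) (p : ℤ) :=
      ⟨P, (EC.mem_torsionBy_iff_nsmul (W := (W.map (Int.castRingHom ℚ))⁄(AlgebraicClosure ℚ))).2
        (addOrderOf_dvd_iff_nsmul_eq_zero.1 hP.dvd)⟩ with hP'
    refine sub_one_sq_eq_zero ?_ (v := be.equivFun P') ?_ ?_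
    · rw [hdR, hdetσ, GalRep.cyc_inertia p hq hqp hA hσ, Units.val_one, map_one]
    · intro h0
      have := congrArg Subtype.val ((LinearEquiv.map_eq_zero_iff _).mp h0)
      rw [show (P' : Pts W) = P from rfl] at this
      rw [this, ZeroMemClass.coe_zero, addOrderOf_zero] at hP
      exact hp'.one_lt.ne hP
    · show LinearMap.toMatrixAlgEquiv be (torsRep W p σ) *ᵥ _ = _
      rw [toMatrixAlgEquiv_mulVec]
      exact congrArg _ (Subtype.ext (hfixP σ hσ))
  · rintro rfl
    obtain ⟨ℓ, hℓgt, hℓ, hℓ2⟩ := Nat.forall_exists_prime_gt_and_eq_mod (q := 5) (a := 2)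
      (isUnit_iff_ne_zero.mpr h2) (W.Δ.natAbs + 5)
    have hgood : W.IsGoodPrimeFor ℓ := fun h => by
      have := Nat.le_of_dvd (Int.natAbs_pos.2 hΔ) (Int.natCast_dvd.1 h)
      omega
    obtain ⟨A, hA⟩ := Galois.exists_liesOverPrime hℓ
    obtain ⟨φ, hφ⟩ := Galois.exists_isFrobeniusAt hℓ hA
    exact ⟨φ, by rw [hdR, (EC.galoisTrace_frobenius W hℓ hgood hA hφ hp' hp2 (by omega)).2, hℓ2]⟩

/-- The form used by `TW.TWHyp`, for any representation equivalent to the torsion. -/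
theorem twIrreducible_of_isEquiv (hΔ : W.Δ ≠ 0) (hW : W.IsSemistableModel) (hp : p = 3 ∨ p = 5)
    (hirr : W.ModRepIsIrreducible p) {k : Type} [Field k] (ρbar : ResidualGaloisRep k)
    (ψ : ZMod p →+* k) (he : ρbar.IsEquiv ((torsResidual W p hΔ).baseChangeAlong ψ))
    (b : Module.Basis (Fin 2) k ρbar.V) (H : Subgroup GQ) (hH : H = ⊤ ∨ H.index = 2)
    (v : Fin 2 → AlgebraicClosure k)
    (hv : ∀ σ ∈ H, ∃ c : AlgebraicClosure k,
      ((residMat ρbar b σ).map (algebraMap k (AlgebraicClosure k))) *ᵥ v = c • v) : v = 0 := by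
  set f := algebraMap k (AlgebraicClosure k)
  let b₀ := Module.finBasisOfFinrankEq (ZMod p) (torsResidual W p hΔ).V (torsResidual W p hΔ).finrank_eq
  have h0 : RHasMatrix (torsResidual W p hΔ) ((LinearMap.toMatrixAlgEquiv b₀).toMonoidHom.comp
      (torsResidual W p hΔ).ρ) := ⟨b₀, fun σ => rfl⟩
  obtain ⟨e⟩ := he
  obtain ⟨U, hU⟩ := (h0.baseChangeAlong ψ).exists_conj
    ((show RHasMatrix ρbar (residMat ρbar b) from ⟨b, fun σ => rfl⟩).of_equiv ⟨e⟩)
  set Um := (U : Mat2 k).map f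
  set Ui := ((U⁻¹ : (Mat2 k)ˣ) : Mat2 k).map f
  have hw := torsRep_no_line W hΔ hW hp hirr b₀ (f.comp ψ) H hH (Um *ᵥ v) fun σ hσ => by
    obtain ⟨c, hc⟩ := hv σ hσ
    refine ⟨c, ?_⟩
    have h := congrArg (fun M : Mat2 k => M.map f) (hU σ)
    simp only [Matrix.map_mul] at h
    refine (Matrix.mulVec_mulVec _ _ _).trans ((congrArg (· *ᵥ v) h).trans ?_)
    rw [← Matrix.mulVec_mulVec, hc, Matrix.mulVec_smul]
  have h1 : Ui * Um = 1 := by
    rw [← Matrix.map_mul, Units.inv_mul, Matrix.map_one f (_root_.map_zero f) (map_one f)]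
  have e1 := congrArg (Ui *ᵥ ·) hw
  simp only [Matrix.mulVec_mulVec, h1, Matrix.one_mulVec, Matrix.mulVec_zero] at e1
  exact e1

/-- Absolute irreducibility of a representation equivalent to the torsion. -/
theorem absIrr_of_isEquiv (hΔ : W.Δ ≠ 0) (hW : W.IsSemistableModel) (hp : p = 3 ∨ p = 5)
    (hirr : W.ModRepIsIrreducible p) {k : Type} [Field k] (ρbar : ResidualGaloisRep k)
    (ψ : ZMod p →+* k) (he : ρbar.IsEquiv ((torsResidual W p hΔ).baseChangeAlong ψ)) :
    ρbar.IsAbsolutelyIrreducible := by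
  intro V hV
  set L := AlgebraicClosure k
  by_contra hcon
  push Not at hcon
  obtain ⟨bk, hbk⟩ := (show RHasMatrix ρbar (residMat ρbar
    (Module.finBasisOfFinrankEq k ρbar.V ρbar.finrank_eq)) from ⟨_, fun σ => rfl⟩).baseChange (k' := L)
  have hV1 : Module.finrank L V = 1 := by
    have hlt : Module.finrank L V < Module.finrank L (ρbar.baseChange L).V :=
      Submodule.finrank_lt (lt_top_iff_ne_top.2 hcon.2).ne
    rw [(ρbar.baseChange L).finrank_eq] at hlt
    have : Module.finrank L V ≠ 0 := fun h => hcon.1 (Submodule.finrank_eq_zero.1 h)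
    omega
  obtain ⟨x, hx, hx0⟩ := Submodule.exists_mem_ne_zero_of_ne_bot hcon.1
  have hz := twIrreducible_of_isEquiv W hΔ hW hp hirr ρbar ψ he
    (Module.finBasisOfFinrankEq k ρbar.V ρbar.finrank_eq) ⊤ (Or.inl rfl) (bk.equivFun x) fun σ _ => by
    obtain ⟨c, hc⟩ := exists_smul_eq_of_finrank_eq_one hV1 (x := (⟨x, hx⟩ : V))
      (fun e => hx0 (congrArg Subtype.val e)) ⟨_, hV σ x hx⟩
    refine ⟨c, ?_⟩
    rw [← map_smul, show c • x = (ρbar.baseChange L).ρ σ x from congrArg Subtype.val hc,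
      ← toMatrixAlgEquiv_mulVec]
    exact congrArg (· *ᵥ _) (hbk σ).symm
  exact hx0 ((LinearEquiv.map_eq_zero_iff _).mp hz)

end Fermat.Agent.R59
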