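/-
S59: a cube-free level is lowered to a minimal one (units A, F).
-/
import Fermat.Agent.R59.NoSq.Main
import Fermat.Agent.R59.Lower.Odd
import Fermat.Agent.R59.Lower.Two
import Fermat.Agent.R59.Lower.Scalar
import Fermat.Agent.R59.Lower.AtP
import Fermat.Agent.R59.Lower.Auxiliary
import Mathlib.Data.Nat.Squarefree

set_option autoImplicit false

namespace Fermat.Agent.R59

open WeierstrassCurve

variable (W : WeierstrassCurve ℤ) {p : ℕ} [Fact p.Prime]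

/-- A squarefree level, keeping the auxiliary primes `R`. -/
theorem exists_squarefree_level (hΔ : W.Δ ≠ 0) (hW : W.IsSemistableModel) (hp2 : p ≠ 2)
    (hirr : W.ModRepIsIrreducible p) (R : Finset ℕ)
    (hRp : ∀ r ∈ R, r.Prime) (hR : p = 3 → ∃ r ∈ R, r % 3 = 2) : ∀ M : ℕ, 0 < M → ¬ p ^ 2 ∣ M →
    (∀ q : ℕ, q.Prime → q ≠ p → ¬ q ^ 3 ∣ M) → (∀ r ∈ R, r ∣ M ∧ ¬ r ^ 2 ∣ M) →
    W.IsResiduallyModularOfLevel p M →
    ∃ M' : ℕ, 0 < M' ∧ Squarefree M' ∧ (∀ r ∈ R, r ∣ M') ∧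
      W.IsResiduallyModularOfLevel p M' := by
  intro M
  induction M using Nat.strong_induction_on with
  | _ M ih =>
    intro hM hp2M h3 hRM hres
    by_cases hsq : Squarefree M
    · exact ⟨M, hM, hsq, fun r hr => (hRM r hr).1, hres⟩
    obtain ⟨q, hq, m, rfl⟩ : ∃ q : ℕ, q.Prime ∧ q * q ∣ M := by
      by_contra h
      push Not at h
      exact hsq (Nat.squarefree_iff_prime_squarefree.mpr h)
    have hqp : q ≠ p := fun h => hp2M ⟨m, by rw [← h, pow_two]⟩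
    have hqm : ¬ q ∣ m := fun ⟨k, hk⟩ => h3 q hq hqp ⟨k, by rw [hk]; ring⟩
    have hm : 0 < m := Nat.pos_of_mul_pos_left hM
    have hdvd : q * m ∣ q * q * m := ⟨q, by ring⟩
    have hqR : q ∉ R := fun h => (hRM q h).2 ⟨m, by rw [pow_two]⟩
    have h1 := isResiduallyModular_of_sq_level W hΔ hW hp2 hirr hq hqp hqm (fun hp3 => by
      obtain ⟨r, hr, hr2⟩ := hR hp3
      have hrp := hRp r hr
      have hco := (Nat.coprime_primes hrp hq).mpr fun e => hqR (e ▸ hr)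
      exact ⟨r, hrp, (hco.mul_right hco).dvd_of_dvd_mul_left (hRM r hr).1, hr2⟩) hres
    refine ih _ ?_ (Nat.mul_pos hq.pos hm) (fun h => hp2M (h.trans hdvd))
      (fun l hl hlp h => h3 l hl hlp (h.trans hdvd)) (fun r hr => ⟨?_, fun h => (hRM r hr).2
        (h.trans hdvd)⟩) h1
    swap
    · exact ((hRp r hr).dvd_mul.mp (hRM r hr).1).elim
        (fun h => ((hRp r hr).dvd_mul.mp h).elim (·.mul_right m) (·.mul_right m))
        (·.mul_left q)
    rw [mul_assoc]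
    exact lt_mul_of_one_lt_left (Nat.mul_pos hq.pos hm) hq.one_lt

/-- A minimal level, keeping the auxiliary primes `R`. -/
theorem exists_minimal_level (hΔ : W.Δ ≠ 0) (hW : W.IsSemistableModel) (hp : p = 3 ∨ p = 5)
    (hirr : W.ModRepIsIrreducible p) (R : Finset ℕ)
    (hR : ∀ r ∈ R, r.Prime ∧ r ≠ p ∧ ¬ (r : ℤ) ∣ W.Δ ∧ ¬ r ≡ 1 [MOD p] ∧
      ¬ (p : ℤ) ∣ W.apOfModel r ^ 2 - ((r : ℤ) + 1) ^ 2)
    (hR3 : p = 3 → ∃ r ∈ R, r % 3 = 2 ∧ ¬ (3 : ℤ) ∣ W.apOfModel r) :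
    ∀ M : ℕ, 0 < M → Squarefree M → (∀ r ∈ R, r ∣ M) → W.IsResiduallyModularOfLevel p M →
    ∃ M' : ℕ, 0 < M' ∧ Squarefree M' ∧ (∀ r ∈ R, r ∣ M') ∧ W.IsResiduallyModularOfLevel p M' ∧
      ∀ l : ℕ, l.Prime → l ∣ M' → l ∉ R → ¬ p ∣ padicValInt l W.Δ := by
  intro M
  induction M using Nat.strong_induction_on with
  | _ M ih =>
    intro hM hsq hRM hres
    by_cases hall : ∀ l : ℕ, l.Prime → l ∣ M → l ∉ R → ¬ p ∣ padicValInt l W.Δ
    · exact ⟨M, hM, hsq, hRM, hres, hall⟩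
    push Not at hall
    have step : ∀ l m : ℕ, l.Prime → l ∉ R → M = l * m →
        W.IsResiduallyModularOfLevel p m → ∃ M' : ℕ, 0 < M' ∧ Squarefree M' ∧ (∀ r ∈ R, r ∣ M') ∧
          W.IsResiduallyModularOfLevel p M' ∧
          ∀ l : ℕ, l.Prime → l ∣ M' → l ∉ R → ¬ p ∣ padicValInt l W.Δ := by
      rintro l m hl hlR rfl hres'
      have hm : 0 < m := Nat.pos_of_mul_pos_left hM
      exact ih m (lt_mul_of_one_lt_left hm hl.one_lt) hm
        (hsq.squarefree_of_dvd (dvd_mul_left m l))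
        (fun r hr => ((Nat.coprime_primes (hR r hr).1 hl).mpr fun e => hlR (e ▸ hr)).dvd_of_dvd_mul_left
          (hRM r hr)) hres'
    have neat : ∀ l m : ℕ, l.Prime → l ∉ R → M = l * m → NeatFor W p m := by
      rintro l m hl hlR rfl hp3
      obtain ⟨r, hr, hr2, hra⟩ := hR3 hp3
      exact ⟨r, (hR r hr).1, ((Nat.coprime_primes (hR r hr).1 hl).mpr fun e =>
        hlR (e ▸ hr)).dvd_of_dvd_mul_left (hRM r hr), hr2, (hR r hr).2.2.1, hra⟩
    by_cases hP : p ∣ M ∧ p ∣ padicValInt p W.Δ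
    · obtain ⟨⟨m, rfl⟩, hv'⟩ := hP
      have hpR : p ∉ R := fun h => (hR p h).2.1 rfl
      exact step p m Fact.out hpR rfl
        (lower_at_p W hΔ hW hp hirr hsq hv' (neat p m Fact.out hpR rfl) hres)
    have hpm : ∀ l m : ℕ, M = l * m → p ∣ m → ¬ p ∣ padicValInt p W.Δ := fun l m e h hv =>
      hP ⟨e ▸ h.mul_left l, hv⟩
    have hne : ∀ l : ℕ, l ∣ M → p ∣ padicValInt l W.Δ → l ≠ p := fun l hlM hv e =>
      hP ⟨e ▸ hlM, by rw [e] at hv; exact hv⟩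
    by_cases hmaz : ∃ l : ℕ, l.Prime ∧ l ∣ M ∧ l ∉ R ∧ p ∣ padicValInt l W.Δ ∧
        ((l : ZMod p) ≠ 1 ∨ ∀ A : ValuationSubring (AlgebraicClosure ℚ),
          A.LiesOverPrime l → DecompNonScalar W p A)
    · obtain ⟨l, hl, hlM, hlR, hv, hcase⟩ := hmaz
      obtain ⟨m, rfl⟩ := hlM
      have hlp := hne l (dvd_mul_right l m) hv
      by_cases h2 : l = 2
      · subst h2
        exact step 2 m hl hlR rfl
          (lower_mazur_two W hΔ hW hp hirr hsq hv (hpm 2 m rfl) (neat 2 m hl hlR rfl) hres)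
      · exact step l m hl hlR rfl (lower_mazur_odd W hΔ hW hp hirr hl h2 hlp hsq hv (hpm l m rfl)
          (neat l m hl hlR rfl) hcase hres)
    push Not at hmaz
    obtain ⟨l, hl, hlM, hlR, hv⟩ := hall
    obtain ⟨h1, hsc⟩ := hmaz l hl hlM hlR hv
    have hlp := hne l hlM hv
    obtain ⟨m, rfl⟩ := hlM
    exact step l m hl hlR rfl (lower_scalar W hΔ hW hp hirr hl hlp hsq hv (hpm l m rfl)
      (neat l m hl hlR rfl) R hR (fun l' hl' hd hR' hv' => ⟨hne l' hd hv', hmaz l' hl' hd hR' hv'⟩)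
      h1 hsc hres)

end Fermat.Agent.R59
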