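/-
S59, unit E: the residual setting of `W` at a minimal level and the point of its Tate module.

Justification: take `O` from `LL/Frey/Coeff` extended to contain one system of eigenvalues at
level `N = M` (`aux = R`, `U` the other primes `≠ p` of `M`). A bad `q` with
`p ∤ v_q(Δ)` is ramified in `W[p]`, so divides the level (S31, and S32 at `p`).  The Tate module
is unipotent at bad `q ≠ p`, flat at good `p`, ordinary at multiplicative `p`.
-/
import Fermat.Agent.R59.Defs
import Fermat.Agent.R59.Seed.Coeff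
import Fermat.Agent.R59.Seed.Transfer
import Fermat.Agent.GD.TW56.BaseChange
import Fermat.Prelude.Def_FLTPrelim_ModularRep
import Mathlib.NumberTheory.Padics.PadicVal.Basic

set_option autoImplicit false
set_option linter.style.haveILetI false

noncomputable section

open IsLocalRing WeierstrassCurve
open Fermat.Agent.Deform
open Fermat.Agent.Galois (GQ)

namespace Fermat.Agent.R59

/-- The setting. `sig`: bad primes `≠ p` with `W[p]` unramified; `raiseP`: `W` multiplicative at `p`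
and `W[p]` flat. -/
theorem exists_seed (W : WeierstrassCurve ℤ) (hΔ : W.Δ ≠ 0) (hW : W.IsSemistableModel) {p : ℕ}
    [Fact p.Prime] (hp : p = 3 ∨ p = 5) (hirr : W.ModRepIsIrreducible p) (M : ℕ) (hM : 0 < M)
    (hsq : Squarefree M) (hres : W.IsResiduallyModularOfLevel p M)
    (R : Finset ℕ) (hRM : ∀ r ∈ R, r ∣ M)
    (hR : ∀ r ∈ R, r.Prime ∧ r ≠ p ∧ ¬ (r : ℤ) ∣ W.Δ ∧ ¬ r ≡ 1 [MOD p] ∧
      ¬ (p : ℤ) ∣ W.apOfModel r ^ 2 - ((r : ℤ) + 1) ^ 2)
    (hR3 : p = 3 → ∃ r ∈ R, r % 3 = 2 ∧ ¬ (3 : ℤ) ∣ W.apOfModel r)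
    (hmin : ∀ l : ℕ, l.Prime → l ∣ M → l ∉ R → ¬ p ∣ padicValInt l W.Δ) :
    ∃ (O : Type) (_ : CommRing O) (_ : IsDomain O) (_ : IsDiscreteValuationRing O)
      (_ : IsAdicComplete (maximalIdeal O) O) (_ : Finite (ResidueField O))
      (_ : Algebra ℤ_[p] O) (_ : Module.Finite ℤ_[p] O) (_ : CharZero O)
      (ρbar : ResidualGaloisRep (ResidueField O)) (N : ℕ) (_ : NeZero N) (U aux sig S : Finset ℕ) (a : ℕ → O)
      (ord raiseP : Bool),
      Seed p O ρbar N U aux S a ord ∧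
      (∀ q ∈ sig, q.Prime ∧ q ≠ p ∧ q ∉ U ∧ q ∉ aux ∧ q ∈ S) ∧
      (raiseP = true → ord = false ∧ (GaloisRepAdic.ofResidualGaloisRep ρbar).IsOrdinaryAt p) ∧
      (∀ l : ℕ, l.Prime → (l : ℤ) ∣ W.Δ →
        l ∈ U ∨ l ∈ sig ∨ (l = p ∧ (ord || raiseP) = true)) ∧
      ∃ Xw : Lift p O ρbar, Function.Bijective (algebraMap O Xw.R) ∧
        Xw.Cond (U ∪ sig) U (ord || raiseP) ∧
        ∀ l : ℕ, l.Prime → l ∉ S → ∀ A : ValuationSubring (AlgebraicClosure ℚ),
          A.LiesOverPrime l → ∀ σ : GQ, A.IsFrobeniusAt σ l →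
            Xw.ρ.trace σ = algebraMap O Xw.R (W.apOfModel l : O) := by
  classical
  have hpp : p.Prime := Fact.out
  have hp2 : p ≠ 2 := by omega
  haveI : NeZero M := ⟨hM.ne'⟩
  haveI := ConductorMatch.isElliptic_pts W hΔ
  obtain ⟨f, 𝔪, hf, h𝔪, hp𝔪, hcong, hind, -⟩ := exists_residual_system W hΔ hp2 hres
  obtain ⟨O, iO₁, iO₂, iO₃, iO₄, iO₅, iO₆, iO₇, iO₈, χ, hchar, ⟨g, hg⟩, hχ⟩ :=
    exists_coeff_point hp2 hf 𝔪 h𝔪 hp𝔪
  haveI := hchar
  set k := ResidueField O
  set ψ := ZMod.castHom (dvd_refl p) k with hψdef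
  -- the maps of `ℤ_p`
  have hres0 : ∀ x : ℤ_[p], ¬ IsUnit x → residue O (algebraMap ℤ_[p] O x) = 0 := fun x hx => by
    have hmem : x ∈ maximalIdeal ℤ_[p] := hx
    rw [PadicInt.maximalIdeal_eq_span_p, Ideal.mem_span_singleton] at hmem
    obtain ⟨c, rfl⟩ := hmem
    rw [map_mul, map_mul, map_natCast, map_natCast, CharP.cast_eq_zero, zero_mul]
  haveI hloc : IsLocalHom (algebraMap ℤ_[p] O) := ⟨fun x hx => by
    by_contra h
    exact ((residue_ne_zero_iff_isUnit _).2 hx) (hres0 x h)⟩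
  have hχk : IsLocalHom ((residue O).comp (algebraMap ℤ_[p] O)) := ⟨fun x hx => by
    by_contra h
    exact hx.ne_zero (hres0 x h)⟩
  obtain ⟨T⟩ := exists_tateData W p hΔ
  set ρk := T.rep.baseChangeAlong ((residue O).comp (algebraMap ℤ_[p] O)) hχk with hρk
  set ρbar : ResidualGaloisRep k := ρk.toResidualGaloisRep
  have hM₁ : RHasMatrix ρbar (baseMat T) := by
    obtain ⟨b, hb⟩ := T.hasMatrix.baseChangeAlong ((residue O).comp (algebraMap ℤ_[p] O)) hχk
    refine ⟨b, fun σ => (hb σ).trans (Matrix.ext fun i j => ?_)⟩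
    exact TateData.ringHom_padic_ext ((residue O).comp (algebraMap ℤ_[p] O))
      (ψ.comp PadicInt.toZMod) (CharP.cast_eq_zero k p) _
  have he : ρbar.IsEquiv ((torsResidual W p hΔ).baseChangeAlong ψ) :=
    hM₁.isEquiv ((T.rhasMatrix_tors hΔ).baseChangeAlong ψ)
  have hcp := charpoly_baseMat T hΔ hM₁ hp2
  have hdetk : (GaloisRepAdic.ofResidualGaloisRep ρbar).DetIsCyclotomic p :=
    TW56.detIsCyclotomic_baseChange hχk (T.detIsCyclotomic hp2 hΔ)
  have hordk : (p : ℤ) ∣ W.Δ → (GaloisRepAdic.ofResidualGaloisRep ρbar).IsOrdinaryAt p := fun h => by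
    have hh := (TW56.isStrictOrdinaryAt_baseChange hχk
      (T.isStrictOrdinaryAt hp2 hΔ h (hW p hpp h))).isOrdinaryAt
    exact hh
  -- the primes
  set bad := W.Δ.natAbs.primeFactors with hbad
  have hbadmem : ∀ l : ℕ, l.Prime → (l ∈ bad ↔ (l : ℤ) ∣ W.Δ) := fun l hl => by
    rw [hbad, Nat.mem_primeFactors, ← Int.natCast_dvd]
    exact ⟨fun h => h.2.1, fun h => ⟨hl, h, Int.natAbs_ne_zero.2 hΔ⟩⟩
  set U := M.primeFactors.filter (fun l => l ≠ p ∧ l ∉ R) with hUdef
  set sig := bad.filter (fun l => l ≠ p ∧ p ∣ padicValInt l W.Δ) with hsigdef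
  set S := insert p (M.primeFactors ∪ bad) with hSdef
  have hU : ∀ l, l ∈ U ↔ (l.Prime ∧ l ∣ M) ∧ l ≠ p ∧ l ∉ R := fun l => by
    rw [hUdef, Finset.mem_filter, Nat.mem_primeFactors_of_ne_zero hM.ne']
  have hsig : ∀ l, l ∈ sig ↔ (l.Prime ∧ (l : ℤ) ∣ W.Δ) ∧ l ≠ p ∧ p ∣ padicValInt l W.Δ := fun l => by
    rw [hsigdef, Finset.mem_filter]
    exact ⟨fun h => ⟨⟨Nat.prime_of_mem_primeFactors h.1,
      (hbadmem l (Nat.prime_of_mem_primeFactors h.1)).1 h.1⟩, h.2⟩,
      fun h => ⟨(hbadmem l h.1.1).2 h.1.2, h.2⟩⟩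
  have hSgood : ∀ l : ℕ, l.Prime → l ∉ S → ¬ (l : ℤ) ∣ W.Δ ∧ l ≠ p ∧ ¬ l ∣ M := fun l hl hlS => by
    simp only [hSdef, Finset.mem_insert, Finset.mem_union, not_or, hbadmem l hl,
      Nat.mem_primeFactors_of_ne_zero hM.ne', not_and] at hlS
    exact ⟨hlS.2.2, hlS.1, hlS.2.1 hl⟩
  -- a prime of the level outside `R` is very ramified; a ramified prime is in the level
  have hMram : ∀ l : ℕ, l.Prime → l ∣ M → l ∉ R →
      (l : ℤ) ∣ W.Δ ∧ ¬ p ∣ padicValInt l W.Δ := fun l hl hlM hlR => by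
    have hv := hmin l hl hlM hlR
    refine ⟨?_, hv⟩
    by_contra hd
    exact hv (by rw [padicValInt.eq_zero_of_not_dvd hd]; exact dvd_zero p)
  have hram : ∀ l : ℕ, l.Prime → l ≠ p → ¬ p ∣ padicValInt l W.Δ → l ∈ U := fun l hl hlp hv => by
    refine (hU l).2 ⟨⟨hl, dvd_level_of_ramified W hΔ hW hp hirr hres hl hlp hv⟩, hlp, fun hlR => ?_⟩
    exact hv (by rw [padicValInt.eq_zero_of_not_dvd (hR l hlR).2.2.1]; exact dvd_zero p)
  have hpR : p ∉ R := fun h => (hR p h).2.1 rfl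
  have hpM : p ∣ M → (p : ℤ) ∣ W.Δ ∧ ¬ p ∣ padicValInt p W.Δ := fun h => hMram p hpp h hpR
  -- the traces
  let a : ℕ → O := fun l =>
    if (l : ℤ) ∣ W.Δ then
      (if h : ∃ A : ValuationSubring (AlgebraicClosure ℚ), A.LiesOverPrime l ∧
        ∃ σ : GQ, A.IsFrobeniusAt σ l then
        ((trE W p h.choose_spec.2.choose).val : O) else 0)
    else (W.apOfModel l : O)
  have ha : ∀ l : ℕ, ¬ (l : ℤ) ∣ W.Δ → a l = (W.apOfModel l : O) := fun l hl => if_neg hl
  have hab : ∀ l : ℕ, l.Prime → l ≠ p → l ∉ U → ∀ A : ValuationSubring (AlgebraicClosure ℚ),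
      A.LiesOverPrime l → ∀ σ : GQ, A.IsFrobeniusAt σ l → ψ (trE W p σ) = residue O (a l) := by
    intro l hl hlp hlU A hA σ hσ
    by_cases hd : (l : ℤ) ∣ W.Δ
    · have hlM : ¬ l ∣ M := fun h => hlU ((hU l).2 ⟨⟨hl, h⟩, hlp, fun hlR => (hR l hlR).2.2.1 hd⟩)
      have h : ∃ A : ValuationSubring (AlgebraicClosure ℚ), A.LiesOverPrime l ∧
        ∃ σ : GQ, A.IsFrobeniusAt σ l := ⟨A, hA, σ, hσ⟩
      rw [show a l = ((trE W p h.choose_spec.2.choose).val : O) from (if_pos hd).trans (dif_pos h),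
        map_natCast, ← map_natCast ψ, ZMod.natCast_zmod_val,
        hind l hl hlM hlp A hA σ hσ _ h.choose_spec.1 _ h.choose_spec.2.choose_spec]
    · rw [ha l hd, map_intCast, (trE_frobenius p W hp2 hΔ hl hd hlp hA hσ).1, map_intCast]
  -- the seed
  have hseed : Seed p O ρbar M U R S a (decide (p ∣ M)) :=
    { p_ne_two := hp2
      p_mem_maximal := (residue_eq_zero_iff _).1 (by rw [map_natCast, CharP.cast_eq_zero])
      absIrr := absIrr_of_isEquiv W hΔ hW hp hirr ρbar ψ he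
      det_cyclotomic := hdetk
      twHyp := fun b =>
        { odd := hp2
          finite_level := by
            obtain ⟨L, hL, h⟩ := ρbar.factorsThroughFiniteLevel
            exact ⟨L, hL, fun σ hσ => by rw [residMat, MonoidHom.comp_apply, h σ hσ, map_one]⟩
          det_cyclotomic := fun σ c hσ => by
            have h := hdetk.2 1 σ c (by simpa using hσ)
            rw [pow_one, CharP.cast_eq_zero k p, Ideal.span_singleton_eq_bot.mpr rfl, Ideal.mem_bot,
              sub_eq_zero] at h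
            rw [← h]
            exact LinearMap.det_toMatrix b (ρbar.ρ σ)
          split := fun σ => by
            obtain ⟨α, β, h⟩ := LL.exists_roots_of_primitive hp2 hg (trE W p σ) (omg p σ)
            exact ⟨α, β, (LinearMap.charpoly_toMatrix (ρbar.ρ σ) b).trans ((hcp σ).trans h)⟩
          irreducible := twIrreducible_of_isEquiv W hΔ hW hp hirr ρbar ψ he b }
      squarefree := hsq
      p_dvd_iff := (decide_eq_true_iff).symm
      p_mem := Finset.mem_insert_self _ _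
      prime_S := fun l hl => by
        simp only [hSdef, Finset.mem_insert, Finset.mem_union] at hl
        rcases hl with rfl | h | h
        exacts [hpp, Nat.prime_of_mem_primeFactors h, Nat.prime_of_mem_primeFactors h]
      level_mem := fun l hl hlM => Finset.mem_insert_of_mem (Finset.mem_union_left _
        ((Nat.mem_primeFactors_of_ne_zero hM.ne').2 ⟨hl, hlM⟩))
      dvd_iff := fun l hl hlp => by
        refine ⟨fun hlM => ?_, fun h => h.elim (fun h => ((hU l).1 h).1.2) (hRM l)⟩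
        by_cases hlR : l ∈ R
        · exact Or.inr hlR
        · exact Or.inl ((hU l).2 ⟨⟨hl, hlM⟩, hlp, hlR⟩)
      mem_U := fun l hlU => by
        obtain ⟨⟨hl, hlM⟩, hlp, hlR⟩ := (hU l).1 hlU
        refine ⟨hl, hlp, hlR, fun hunr => (hMram l hl hlM hlR).2 ?_⟩
        exact (isUnramifiedAt_torsResidual_iff W hΔ hW hp2 hl hlp).1
          ((unramified_iff_tors T hΔ hM₁).1 hunr)
      unipotent := fun l hlU => TW56.isUnipotentOnInertiaAt_baseChange hχk
        (T.unipotent hp2 hΔ hW ((hU l).1 hlU).1.1 ((hU l).1 hlU).2.1)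
      unramified := fun l hl hlp hlU => (unramified_iff_tors T hΔ hM₁).2
        ((isUnramifiedAt_torsResidual_iff W hΔ hW hp2 hl hlp).2
          (by_contra fun hv => hlU (hram l hl hlp hv)))
      mem_aux := fun r hr => by
        obtain ⟨h1, h2, h3, h4, h5⟩ := hR r hr
        refine ⟨h1, h2, h4, ?_⟩
        have := isUnit_natCast_of_not_dvd (O := O) h5
        push_cast at this
        rwa [ha r h3]
      neat := by
        rcases hp with h | h
        · obtain ⟨r, hr, hr3, -⟩ := hR3 h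
          exact Or.inr ⟨r, hr, hr3⟩
        · exact Or.inl h.ge
      ordinary := fun h => hordk (hpM (of_decide_eq_true h)).1
      not_flat := fun h => not_isFlatAt_baseMat T hΔ hM₁ hW hp
        (hpM (of_decide_eq_true h)).1 (hpM (of_decide_eq_true h)).2
      charpoly_frob := fun l hl hlp hlU A hA σ hσ => by
        rw [hcp σ, hab l hl hlp hlU A hA σ hσ, omg_frobenius p hl hlp hA hσ, map_natCast]
      point := fun S' hS' => by
        refine ⟨χ.comp (Subalgebra.inclusion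
          (CuspForm.heckeAlgebra_mono (Set.empty_subset _))).toRingHom, fun l hl hlM hlS => ?_⟩
        obtain ⟨hgood, hlp, -⟩ := hSgood l hl fun h => hlS (Finset.mem_coe.2 (hS' h))
        rw [ha l hgood, map_intCast]
        exact hχ l hl hlM (Set.notMem_empty l) _ (hcong l hl hgood hlM hlp) }
  -- the point
  haveI : Module.Finite O O := Module.Finite.self O
  have hTO := T.isTateRep_baseChange hΔ hW hp2 (O := O) hloc
  set ρO := T.rep.baseChangeAlong (algebraMap ℤ_[p] O) hloc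
  have hresid : ρO.residual.IsEquiv (ρbar.baseChangeAlong (ResidueField.map (algebraMap O O))) := by
    refine (HasMatrix.residual (T.hasMatrix.baseChangeAlong (algebraMap ℤ_[p] O) hloc)).isEquiv ?_
    have h := hM₁.baseChangeAlong (ResidueField.map (algebraMap O O))
    obtain ⟨b, hb⟩ := h
    refine ⟨b, fun σ => (hb σ).trans (Matrix.ext fun i j => ?_)⟩
    exact TateData.ringHom_padic_ext
      (((ResidueField.map (algebraMap O O)).comp ψ).comp PadicInt.toZMod)
      ((residue O).comp (algebraMap ℤ_[p] O)) (CharP.cast_eq_zero k p) _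
  let Xw : Lift p O ρbar :=
    { R := O
      residue_surjective := residue_surjective
      ρ := ρO
      residual := hresid
      adjoin_trace := eq_top_iff.2 fun x _ =>
        Subalgebra.algebraMap_mem (Algebra.adjoin O (Set.range ρO.trace)) x
      det_cyclotomic := hTO.det_cyc }
  refine ⟨O, iO₁, iO₂, iO₃, iO₄, iO₅, iO₆, iO₇, iO₈, ρbar, M, inferInstance, U, R, sig, S, a,
    decide (p ∣ M), decide ((p : ℤ) ∣ W.Δ ∧ ¬ p ∣ M), hseed, fun q hq => ?_, fun h => ?_,
    fun l hl hld => ?_, Xw, Function.bijective_id, ⟨fun l hl hlp hlU => ?_, fun l hlU => ?_,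
    fun h => ?_, fun h => ?_⟩, fun l hl hlS A hA σ hσ => ?_⟩
  · obtain ⟨⟨hq1, hqd⟩, hqp, hqv⟩ := (hsig q).1 hq
    refine ⟨hq1, hqp, fun hqU => ?_, fun hqR => (hR q hqR).2.2.1 hqd,
      Finset.mem_insert_of_mem (Finset.mem_union_right _ ((hbadmem q hq1).2 hqd))⟩
    obtain ⟨⟨-, hqM⟩, -, hqR⟩ := (hU q).1 hqU
    exact (hMram q hq1 hqM hqR).2 hqv
  · obtain ⟨h1, h2⟩ := of_decide_eq_true h
    exact ⟨decide_eq_false h2, hordk h1⟩
  · rcases eq_or_ne l p with rfl | hlp
    · refine Or.inr (Or.inr ⟨rfl, ?_⟩)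
      by_cases h : l ∣ M <;> simp [h, hld]
    · by_cases hv : p ∣ padicValInt l W.Δ
      · exact Or.inr (Or.inl ((hsig l).2 ⟨⟨hl, hld⟩, hlp, hv⟩))
      · exact Or.inl (hram l hl hlp hv)
  · refine hTO.unram l hl hlp fun hd => hlU (Finset.mem_union.2 ?_)
    by_cases hv : p ∣ padicValInt l W.Δ
    · exact Or.inr ((hsig l).2 ⟨⟨hl, hd⟩, hlp, hv⟩)
    · exact Or.inl (hram l hl hlp hv)
  · exact hTO.unipotent l ((hU l).1 hlU).1.1 ((hU l).1 hlU).2.1
  · refine hTO.flat fun hd => ?_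
    by_cases hM' : p ∣ M <;> simp [hM', hd] at h
  · refine (hTO.ordinary ?_).isOrdinaryAt
    by_cases hM' : p ∣ M
    · exact (hpM hM').1
    · simp [hM'] at h
      exact h
  · obtain ⟨hgood, hlp, -⟩ := hSgood l hl hlS
    have h := hTO.charpoly_frob l hl hlp hgood A hA σ hσ
    let b := Module.finBasisOfFinrankEq O ρO.V ρO.finrank_eq
    show LinearMap.trace O ρO.V (ρO.ρ σ) = algebraMap O O (W.apOfModel l : O)
    rw [LinearMap.trace_eq_matrix_trace O b, Matrix.trace_eq_neg_charpoly_coeff,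
      LinearMap.charpoly_toMatrix, h]
    simp

end Fermat.Agent.R59
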