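/-
S59: a system with the values `a_l(W)` makes `W` modular at a multiple of the level.

Justification: `Newform.exists_eigenform_of_ringHom` after restriction along the level.
-/
import Fermat.Agent.Newform.Independence
import Fermat.Agent.Newform.Character
import Fermat.Agent.Hecke.IntegralBasis
import Fermat.Prelude.Def_FLTPrelim_ModularRep
import Fermat.Prelude.Def_CuspForm_HeckeAlgebra

set_option autoImplicit false
set_option linter.style.haveILetI false

open WeierstrassCurve

namespace Fermat.Agent.R59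

/-- Integral eigenvalues outside `S` give modularity at the level times the primes of `S`. -/
theorem isModularModelOfLevel_of_theta (W : WeierstrassCurve ℤ) {N : ℕ} [NeZero N] (S : Finset ℕ)
    (_hNS : ∀ q : ℕ, q.Prime → q ∣ N → q ∈ S) (hS : ∀ q ∈ S, q.Prime)
    {O : Type} [CommRing O] [IsDomain O] [CharZero O]
    (θ : CuspForm.heckeAlgebra N 2 (↑S : Set ℕ) →+* O)
    (hθ : ∀ (l : ℕ) (hl : l.Prime) (hlN : ¬ l ∣ N) (hlS : l ∉ (↑S : Set ℕ)),
      θ (CuspForm.heckeAlgebra.T hl hlN hlS) = (W.apOfModel l : O)) :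
    W.IsModularModelOfLevel (N * ∏ q ∈ S.filter (fun q => ¬ q ∣ N), q) := by
  classical
  set P := ∏ q ∈ S.filter (fun q => ¬ q ∣ N), q with hP
  haveI : NeZero (N * P) := ⟨mul_ne_zero (NeZero.ne N) (Finset.prod_ne_zero_iff.mpr fun q hq =>
    (hS q (Finset.mem_filter.mp hq).1).ne_zero)⟩
  let ι : O →+* FractionRing O := algebraMap O (FractionRing O)
  obtain ⟨f, χ, hf, hker, -, hfl⟩ := Newform.exists_eigenform_of_ringHom (↑S : Set ℕ) (ι.comp θ)
  haveI := Hecke.moduleFinite_heckeAlgebra N 2 (↑S : Set ℕ)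
  haveI : Algebra.IsIntegral ℤ (CuspForm.heckeAlgebra N 2 (↑S : Set ℕ)) :=
    Algebra.IsIntegral.of_finite _ _
  haveI : CharZero (FractionRing O) :=
    charZero_of_injective_algebraMap (IsFractionRing.injective O (FractionRing O))
  haveI : (RingHom.ker χ).IsPrime := RingHom.ker_isPrime χ
  -- both kernels lie over `0`
  have heq : RingHom.ker (ι.comp θ) ≤ RingHom.ker χ := fun z hz => by
    by_contra hz'
    have := Ideal.comap_lt_comap_of_integral_mem_sdiff (R := ℤ) hker ⟨hz, hz'⟩
      (Algebra.IsIntegral.isIntegral z)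
    refine this.not_ge fun n hn => ?_
    rw [Ideal.mem_comap, RingHom.mem_ker, eq_intCast, map_intCast, Int.cast_eq_zero] at hn
    subst hn
    exact zero_mem _
  obtain ⟨g, hg, hgf⟩ := Newform.exists_eigenform_of_dvd (dvd_mul_right N P) hf
  refine ⟨g, hg, fun l hl _ hlNP => ?_⟩
  have hlN : ¬ l ∣ N := fun h => hlNP (dvd_mul_of_dvd_left h P)
  have hlS : l ∉ (↑S : Set ℕ) := fun h => hlNP (dvd_mul_of_dvd_right
    (Finset.dvd_prod_of_mem _ (Finset.mem_filter.mpr ⟨Finset.mem_coe.mp h, hlN⟩)) N)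
  have h0 : CuspForm.heckeAlgebra.T hl hlN hlS -
      (W.apOfModel l : CuspForm.heckeAlgebra N 2 (↑S : Set ℕ)) ∈ RingHom.ker χ := heq (by
    rw [RingHom.mem_ker, RingHom.comp_apply, map_sub, hθ l hl hlN hlS, map_intCast, sub_self,
      map_zero])
  rw [RingHom.mem_ker, map_sub, map_intCast, sub_eq_zero] at h0
  rw [hgf l hl hlNP, ← hfl l hl hlN hlS, h0]

end Fermat.Agent.R59
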