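/-
S59: the assembly from the units.
-/
import Fermat.Agent.R59.Reduce
import Fermat.Agent.R59.SeedExists
import Fermat.Agent.R59.Min.Main
import Fermat.Agent.R59.Min.LatticeSys
import Fermat.Agent.R59.Min.EigenRank
import Fermat.Agent.R59.Raised.Main
import Fermat.Agent.R59.Phi.Main
import Fermat.Agent.R59.Glue
import Fermat.Agent.R59.Crit.Congr
import Fermat.Agent.R59.Theta
import Fermat.Agent.S58
import Fermat.Prelude.Def_WeierstrassCurve_Mlc1RowStatement

set_option autoImplicit false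

noncomputable section

open IsLocalRing WeierstrassCurve

namespace Fermat.Agent.R59

/-- **Modularity lifting at the conductor level.** -/
theorem modularityLifting (p : ℕ) (hp : p = 3 ∨ p = 5) (W : WeierstrassCurve ℤ) (hΔ : W.Δ ≠ 0)
    (hW : W.IsSemistableModel) (hirr : W.ModRepIsIrreducible p) (M₀ : ℕ) [NeZero M₀]
    (hres₀ : W.IsResiduallyModularOfLevel p M₀) (hM₀ : ¬ p ^ 2 ∣ M₀)
    (hM₀3 : ∀ q : ℕ, q.Prime → q ≠ p → ¬ q ^ 3 ∣ M₀) :
    Mlc1IsModularModelOfExactConductorLevel W := by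
  classical
  haveI : Fact p.Prime := ⟨by rcases hp with rfl | rfl <;> norm_num⟩
  have hp2 : p ≠ 2 := by omega
  obtain ⟨R, M₂, h2, h2p, h23, h2res, hR, hR3⟩ :=
    exists_aux_primes W hΔ hW hp hirr M₀ (NeZero.pos M₀) hM₀ hM₀3 hres₀
  have hR' : ∀ r ∈ R, r.Prime ∧ r ≠ p ∧ ¬ (r : ℤ) ∣ W.Δ ∧ ¬ r ≡ 1 [MOD p] ∧
      ¬ (p : ℤ) ∣ W.apOfModel r ^ 2 - ((r : ℤ) + 1) ^ 2 :=
    fun r hr => ⟨(hR r hr).1, (hR r hr).2.1, (hR r hr).2.2.2.2⟩
  obtain ⟨M₁, h1, h1sq, h1R, h1res⟩ := exists_squarefree_level W hΔ hW hp2 hirr R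
    (fun r hr => (hR r hr).1) (fun h => (hR3 h).imp fun r hr => ⟨hr.1, hr.2.1⟩) M₂ h2 h2p h23
    (fun r hr => ⟨(hR r hr).2.2.1, (hR r hr).2.2.2.1⟩) h2res
  obtain ⟨M, hM, hMsq, hRM, hMres, hmin⟩ := exists_minimal_level W hΔ hW hp hirr R hR' hR3 M₁ h1
    h1sq h1R h1res
  obtain ⟨O, _, _, _, _, _, _, _, _, ρbar, N, _, U, aux, sig, S, a, ord, raiseP, H, hsig, hP, hbad,
    Xw, hbij, hXw, htrw⟩ := exists_seed W hΔ hW hp hirr M hM hMsq hMres R hRM hR' hR3 hmin
  obtain ⟨X₀, hlat, hcond, ⟨g⟩⟩ := exists_lattice_sys H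
  set d := Module.finrank O (coEigen g X₀.M) with hd
  obtain ⟨N', _, Y, σ, t, γp, ⟨hp2N, hN3, hN'S, hN'U, hN'p⟩, hσ, hY, ht, hγ0, hγ1, -, hrk, hΩ⟩ :=
    exists_raised_sys H X₀ hlat hcond g sig hsig raiseP hP
  obtain ⟨Z, σY, σW, hσY, hσW, hjoint, hZ⟩ := exists_glue H Y.X Xw (o := ord || raiseP)
    (fun ho => by
      cases ord with
      | true => exact H.ordinary rfl
      | false => exact (hP (by simpa using ho)).2) hY hXw
  have hσ₀ : Z.IsHom X₀.X (σ.comp σY) := fun τ => by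
    rw [AlgHom.comp_apply, hσY, hσ]
  obtain ⟨Zm, π, σ', -, -, hσ', hcomp, hZm, hΦ⟩ := exists_minimal_quotient H sig hsig raiseP hP Z
    X₀.X hZ hcond (σ.comp σY) hσ₀ g t ht γp hγ0 hγ1
  have hmin' := cotLen_le_omegaLen H X₀ hlat hcond g Zm hZm σ' hσ'
  -- `Z` acts faithfully at the raised level
  letI : Module Z.R Y.M := Module.compHom Y.M σY.toRingHom
  haveI : IsScalarTower O Z.R Y.M := IsScalarTower.of_algebraMap_smul fun r x => by
    show σY (algebraMap O Z.R r) • x = r • x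
    rw [σY.commutes, algebraMap_smul]
  have hsurj : Function.Surjective σY := by
    rw [← AlgHom.range_eq_top, eq_top_iff, ← Y.X.adjoin_trace]
    exact Algebra.adjoin_le (by rintro _ ⟨τ, rfl⟩; exact ⟨_, hσY τ⟩)
  have hco : coEigen (g.comp (σ.comp σY)) Y.M = coEigen (g.comp σ) Y.M := by
    ext f
    refine ⟨fun hf y m => ?_, fun hf z m => hf (σY z) m⟩
    obtain ⟨z, rfl⟩ := hsurj y
    exact hf z m
  have heig : eigen (g.comp (σ.comp σY)) Y.M = eigen (g.comp σ) Y.M := by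
    ext m
    refine ⟨fun hm y => ?_, fun hm z => hm (σY z)⟩
    obtain ⟨z, rfl⟩ := hsurj y
    exact hm z
  have hΩeq : omegaLen (g.comp (σ.comp σY)) Y.M = omegaLen (g.comp σ) Y.M :=
    omegaLen_congr heig hco
  obtain ⟨r, hr, hr'⟩ := Y.sep (g.comp σ)
  obtain ⟨r', rfl⟩ := hsurj r
  have hann := annihilator_eq_bot_of_omegaLen_ge (g.comp (σ.comp σY)) Y.M d
    (finrank_coEigen_pos g X₀.M (X₀.sep g) X₀.faithful) (by rw [hco, hrk]) ⟨r', hr, fun x hx m => by
      show σY (r' * x) • m = 0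
      rw [map_mul, hr' (σY x) (by simpa using hx), zero_smul]⟩ (by
      rw [hΩeq]
      refine le_trans ?_ hΩ
      refine (mul_le_mul' le_rfl hΦ).trans ?_
      rw [mul_add]
      exact add_le_add hmin' le_rfl)
  have hinj : Function.Injective σY := by
    rw [injective_iff_map_eq_zero]
    intro z hz
    have : z ∈ Module.annihilator Z.R Y.M := Module.mem_annihilator.mpr fun m => by
      show σY z • m = 0
      rw [hz, zero_smul]
    rwa [hann, Submodule.mem_bot] at this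
  -- the point of `W`
  let e : Y.X.R ≃ₐ[O] Z.R := (AlgEquiv.ofBijective σY ⟨hinj, hsurj⟩).symm
  let eO : Xw.R ≃ₐ[O] O := (AlgEquiv.ofBijective (Algebra.ofId O Xw.R) hbij).symm
  obtain ⟨θ, hθ⟩ := Y.occurs (eO.toAlgHom.comp (σW.comp e.toAlgHom))
  have hmod := isModularModelOfLevel_of_theta W (N := N') S hN'S H.prime_S θ
    fun l hl hlN hlS => by
      obtain ⟨A, hA⟩ := Galois.exists_liesOverPrime hl
      obtain ⟨τ, hτ⟩ := Galois.exists_isFrobeniusAt hl hA
      have he : e (Y.X.ρ.trace τ) = Z.ρ.trace τ := by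
        rw [AlgEquiv.symm_apply_eq]; exact (hσY τ).symm
      rw [hθ l hl hlN hlS A hA τ hτ, AlgHom.comp_apply, AlgHom.comp_apply, AlgEquiv.coe_toAlgHom,
        AlgEquiv.coe_toAlgHom, he, hσW, htrw l hl (by simpa using hlS) A hA τ hτ]
      exact AlgEquiv.commutes eO _
  -- the level
  set P := ∏ q ∈ S.filter (fun q => ¬ q ∣ N'), q with hPdef
  have hP2 : ∀ q : ℕ, q.Prime → q ∣ N' → ¬ q ∣ P := fun q hq hqN h => by
    obtain ⟨l, hl, hql⟩ := (Prime.dvd_finsetProd_iff hq.prime _).mp h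
    obtain ⟨hlS, hlN⟩ := Finset.mem_filter.mp hl
    exact hlN ((Nat.prime_dvd_prime_iff_eq hq (H.prime_S l hlS)).mp hql ▸ hqN)
  have hPsq : Squarefree P := by
    refine Finset.squarefree_prod_of_pairwise_isCoprime ?_ fun q hq =>
      (H.prime_S q (Finset.mem_filter.mp hq).1).squarefree
    intro x hx y hy hxy
    exact Nat.coprime_iff_isRelPrime.mp ((Nat.coprime_primes
      (H.prime_S x (Finset.mem_filter.mp hx).1) (H.prime_S y (Finset.mem_filter.mp hy).1)).mpr hxy)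
  have hpow : ∀ q : ℕ, q.Prime → ∀ k, 2 ≤ k → q ^ k ∣ N' * P → q ^ k ∣ N' := fun q hq k hk h => by
    by_cases hqN : q ∣ N'
    · exact (Nat.Coprime.pow_left k ((hq.coprime_iff_not_dvd).mpr (hP2 q hq hqN))).dvd_of_dvd_mul_right h
    · exact absurd (hPsq q ((dvd_pow_self q (by norm_num : (2 : ℕ) ≠ 0)).trans
        (pow_dvd_pow q hk |>.trans ((Nat.Coprime.pow_left k
          ((hq.coprime_iff_not_dvd).mpr hqN)).dvd_of_dvd_mul_left h)) |> fun _ => by
        have := (pow_dvd_pow q hk).trans ((Nat.Coprime.pow_left k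
          ((hq.coprime_iff_not_dvd).mpr hqN)).dvd_of_dvd_mul_left h)
        rwa [pow_two] at this)) hq.not_isUnit
  have hfinal := Fermat.Agent.S58.result W hW (N' * P) p hp2 hirr
    (fun h => hp2N (hpow p Fact.out 2 le_rfl h)) hmod
    (fun l hl hlΔ => dvd_mul_of_dvd_left (by
      rcases hbad l hl hlΔ with h | h | ⟨rfl, h⟩
      · exact hN'U l (Finset.mem_union_left _ h)
      · exact hN'U l (Finset.mem_union_right _ h)
      · exact hN'p h) P)
    (fun q hq h => hN3 q hq (hpow q hq 3 (by norm_num) h))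
  exact ⟨W.conductorLevel, W.conductorLevel_pos, W.squarefree_conductorLevel,
    fun q hq => W.prime_dvd_conductorLevel_iff hΔ hq, hfinal⟩

end Fermat.Agent.R59
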